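import Fermat.Agent.S59.NMP.H134.SelSpec
import Fermat.Agent.S59.H601.PeuLevel

/-!
# Row S59, cell NMP, leaf SEL, sub-leaf PEUHOPF — CLOSED (helper601)

`peuHopf : NMP.H134.PeuHopfStatement` (verbatim): a finite level of an ordinary representation
with cyclotomic determinant which is peu ramifié at one place `P | p` (Kummer form on the whole
inertia group) has a Hopf model.  Adapter over `Fermat.Agent.S59.H601.peuLevel`.
-/

set_option autoImplicit false

namespace Fermat.Agent.S59.NMP.H601

/-- **PEUHOPF.** -/
theorem peuHopf : Fermat.Agent.S59.NMP.H134.PeuHopfStatement := by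
  intro p _ _ A _ _ _ ρ hdet P hP L hL I hfin hpeu
  obtain ⟨n, ζ, hζ, hn, h⟩ := hpeu
  exact Fermat.Agent.S59.H601.peuLevel p A ρ hdet P hP L hL I hfin n ζ hζ hn h

end Fermat.Agent.S59.NMP.H601
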