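import Fermat.Agent.S59.H601.PeuLevel

/-!
# Row S59, cell NMP, leaf SEL / VALFIN: finite duality with values in `ℤ/N` (helper601)

`G` a finite abelian group killed by `N ≠ 0`.

* `card_addHom_le601`   : `#Hom(H, ℤ/N) ≤ #H` for every finite abelian group `H`;
* `eval_bijective601`   : `G → Hom(Hom(G, ℤ/N), ℤ/N)` is bijective;
* `exists_eval_eq601`   : every additive `k : Hom(G, ℤ/N) → ℤ/N` is the evaluation at some `v : G`;
* `exists_eval_eq_root601` : the same for a multiplicative `Φ : Hom(G, ℤ/N) → μ_N ⊆ ℚ̄`: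
  `Φ Λ = ζ ^ (Λ v).val`.

Mathlib + `sepN601`, `ezN601` only.
-/

set_option autoImplicit false
set_option linter.unusedSectionVars false
set_option linter.style.haveILetI false

namespace Fermat.Agent.S59.NMP.H601

open Fermat.Agent.S19 Fermat.Agent.S59.H601

/-- There is a primitive `N`-th root of unity in `ℚ̄`. -/
theorem exists_primitiveRootN601 (N : ℕ) [NeZero N] : ∃ ζ : Qb, IsPrimitiveRoot ζ N := by
  haveI : NeZero ((N : ℕ) : Qb) := ⟨by exact_mod_cast NeZero.ne N⟩
  exact HasEnoughRootsOfUnity.exists_primitiveRoot Qb N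

section Card

variable {N : ℕ} [NeZero N] {H : Type} [AddCommGroup H] [Finite H]

/-- The multiplicative character `m ↦ ζ ^ ξ m` attached to `ξ : H → ℤ/N`. -/
noncomputable def mulChar601 {ζ : Qb} (hζ : ζ ^ N = 1) (ξ : H →+ ZMod N) :
    Multiplicative H →* Qbˣ where
  toFun m := Units.mk0 (ezN601 ζ (ξ (Multiplicative.toAdd m))) (ezN601_ne_zero hζ _)
  map_one' := by
    apply Units.ext
    show ezN601 ζ (ξ 0) = 1
    rw [map_zero, ezN601_zero]
  map_mul' a b := by
    apply Units.ext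
    show ezN601 ζ (ξ (Multiplicative.toAdd a + Multiplicative.toAdd b)) = _ * _
    rw [map_add, ezN601_add hζ]
    rfl

theorem mulChar601_injective {ζ : Qb} (hζ : IsPrimitiveRoot ζ N) :
    Function.Injective (mulChar601 (H := H) hζ.pow_eq_one) := by
  intro ξ ξ' h
  ext m
  have h1 := congrArg (fun φ : Multiplicative H →* Qbˣ => ((φ (Multiplicative.ofAdd m) : Qbˣ) : Qb)) h
  exact ezN601_injective hζ h1

/-- `#Hom(H, ℤ/N) ≤ #H`. -/
theorem card_addHom_le601 : Nat.card (H →+ ZMod N) ≤ Nat.card H := by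
  obtain ⟨ζ, hζ⟩ := exists_primitiveRootN601 N
  have hexp : Monoid.exponent (Multiplicative H) ≠ 0 := Monoid.exponent_ne_zero_of_finite
  haveI : NeZero ((Monoid.exponent (Multiplicative H) : ℕ) : Qb) := ⟨by exact_mod_cast hexp⟩
  have hcard : Nat.card (Multiplicative H →* Qbˣ) = Nat.card (Multiplicative H) :=
    CommGroup.card_monoidHom_of_hasEnoughRootsOfUnity (Multiplicative H) Qb
  have hH : Nat.card (Multiplicative H) = Nat.card H := Nat.card_congr Multiplicative.toAdd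
  have hpos : Nat.card (Multiplicative H →* Qbˣ) ≠ 0 := by
    rw [hcard, hH]
    exact Nat.card_pos.ne'
  haveI : Finite (Multiplicative H →* Qbˣ) := Nat.finite_of_card_ne_zero hpos
  calc Nat.card (H →+ ZMod N) ≤ Nat.card (Multiplicative H →* Qbˣ) :=
        Nat.card_le_card_of_injective _ (mulChar601_injective hζ)
    _ = Nat.card H := by rw [hcard, hH]

end Card

section Dual

variable {N : ℕ} [NeZero N] {G : Type} [AddCommGroup G] [Finite G]

/-- The evaluation map `G → Hom(Hom(G, ℤ/N), ℤ/N)`. -/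
def evalHom601 (N : ℕ) (G : Type) [AddCommGroup G] (v : G) : (G →+ ZMod N) →+ ZMod N where
  toFun Λ := Λ v
  map_zero' := rfl
  map_add' _ _ := rfl

/-- **Finite duality.**  For a finite abelian group killed by `N` the evaluation map
`G → Hom(Hom(G, ℤ/N), ℤ/N)` is bijective. -/
theorem eval_bijective601 (hN : ∀ x : G, N • x = 0) :
    Function.Bijective (evalHom601 N G) := by
  obtain ⟨ζ, hζ⟩ := exists_primitiveRootN601 N
  haveI : Finite (G →+ ZMod N) := finite_addMonoidHomN601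
  haveI : Finite ((G →+ ZMod N) →+ ZMod N) := finite_addMonoidHomN601
  have hinj : Function.Injective (evalHom601 N G) := by
    intro v w h
    have h0 : v - w = 0 := by
      apply sepN601 hN hζ
      intro ξ
      have h1 : evalHom601 N G v ξ = evalHom601 N G w ξ := by rw [h]
      have h2 : ξ v = ξ w := h1
      rw [map_sub, h2, sub_self]
    exact sub_eq_zero.mp h0
  have hcard : Nat.card ((G →+ ZMod N) →+ ZMod N) ≤ Nat.card G :=
    le_trans card_addHom_le601 card_addHom_le601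
  exact hinj.bijective_of_nat_card_le hcard

/-- Every additive map `Hom(G, ℤ/N) → ℤ/N` is the evaluation at a point. -/
theorem exists_eval_eq601 (hN : ∀ x : G, N • x = 0) (k : (G →+ ZMod N) →+ ZMod N) :
    ∃ v : G, ∀ Λ : G →+ ZMod N, k Λ = Λ v := by
  obtain ⟨v, hv⟩ := (eval_bijective601 hN).2 k
  refine ⟨v, fun Λ => ?_⟩
  rw [← hv]
  rfl

/-- Function form: an additive function `Hom(G, ℤ/N) → ℤ/N` is the evaluation at a point. -/
theorem exists_eval_eq_fun601 (hN : ∀ x : G, N • x = 0) (k : (G →+ ZMod N) → ZMod N)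
    (hk : ∀ Λ Λ' : G →+ ZMod N, k (Λ + Λ') = k Λ + k Λ') :
    ∃ v : G, ∀ Λ : G →+ ZMod N, k Λ = Λ v :=
  exists_eval_eq601 hN (AddMonoidHom.mk' k hk)

/-- Root of unity form: a multiplicative function `Φ : Hom(G, ℤ/N) → μ_N` is
`Λ ↦ ζ ^ Λ v` for a point `v`. -/
theorem exists_eval_eq_root601 (hN : ∀ x : G, N • x = 0) {ζ : Qb} (hζ : IsPrimitiveRoot ζ N)
    (Φ : (G →+ ZMod N) → Qb) (hmul : ∀ Λ Λ' : G →+ ZMod N, Φ (Λ + Λ') = Φ Λ * Φ Λ')
    (hroot : ∀ Λ : G →+ ZMod N, Φ Λ ^ N = 1) :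
    ∃ v : G, ∀ Λ : G →+ ZMod N, Φ Λ = ζ ^ (Λ v).val := by
  have hex : ∀ Λ : G →+ ZMod N, ∃ i : ZMod N, ezN601 ζ i = Φ Λ := by
    intro Λ
    obtain ⟨i, hi, hi'⟩ := hζ.eq_pow_of_pow_eq_one (hroot Λ)
    refine ⟨(i : ZMod N), ?_⟩
    unfold ezN601
    rw [ZMod.val_natCast_of_lt hi, hi']
  choose k hk using hex
  have hadd : ∀ Λ Λ' : G →+ ZMod N, k (Λ + Λ') = k Λ + k Λ' := by
    intro Λ Λ'
    apply ezN601_injective hζ
    rw [ezN601_add hζ.pow_eq_one, hk, hk, hk, hmul]
  obtain ⟨v, hv⟩ := exists_eval_eq_fun601 hN k hadd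
  refine ⟨v, fun Λ => ?_⟩
  rw [← hk Λ, hv Λ]
  rfl

end Dual

end Fermat.Agent.S59.NMP.H601
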